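import Fermat.Agent.S19.KM.GR.Defs
import Fermat.Agent.S19.KM.Red.Basic

/-!
# S19 / KM route, section G1: decomposition and inertia (no curves)
-/

set_option autoImplicit false

noncomputable section

namespace Fermat.Agent.S19.KM

open AlgebraicCurve Module Submodule

variable {K F k Fk : Type*} [Field K] [Field F] [Algebra K F] [Field k] [Field Fk] [Algebra k Fk]

section G1
variable {R : RedData K F k Fk}

namespace Dec

/-- an element outside `O` has an inverse reducing to zero -/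
theorem red_inv_of_notMem {f : F} (hf : f ∉ R.O) : R.Red f⁻¹ 0 := by
  have h1 : f⁻¹ ∈ R.O := (R.O.mem_or_inv_mem f).resolve_left hf
  refine ⟨h1, (R.red_eq_zero _).2 fun hu => hf ?_⟩
  obtain ⟨u, hu⟩ := hu
  have h2 : ((u⁻¹ : (R.O)ˣ) : R.O) * ⟨f⁻¹, h1⟩ = 1 := by rw [← hu]; exact u.inv_mul
  have h3 : (((u⁻¹ : (R.O)ˣ) : R.O) : F) * f⁻¹ = 1 := congrArg Subtype.val h2
  have hf0 : f⁻¹ ≠ 0 := right_ne_zero_of_mul_eq_one h3
  have h4 : f = (((u⁻¹ : (R.O)ˣ) : R.O) : F) := by
    have hf1 : f ≠ 0 := by simpa using hf0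
    field_simp at h3
    exact h3.symm
  rw [h4]
  exact Subtype.property _

/-- if `f⁻¹` reduces to zero then `f` is not in `O` (or `f = 0`). -/
theorem notMem_of_red_inv {f : F} (hf0 : f ≠ 0) (h : R.Red f⁻¹ 0) : f ∉ R.O := by
  intro hf
  have h2 := h.mul (⟨hf, rfl⟩ : R.Red f (R.red ⟨f, hf⟩))
  rw [inv_mul_cancel₀ hf0, zero_mul] at h2
  exact one_ne_zero (RedData.Red.one.unique h2)

/-- a ring automorphism compatible with a surjective ring homomorphism descends. -/
theorem exists_ringEquiv {O B : Type*} [CommRing O] [CommRing B] (red : O →+* B)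
    (hs : Function.Surjective red) (e : O ≃+* O) (hker : ∀ x, red x = 0 ↔ red (e x) = 0) :
    ∃ eb : B ≃+* B, ∀ x, eb (red x) = red (e x) := by
  let φ : B →+* B := red.liftOfSurjective hs ⟨red.comp (e : O →+* O), fun x hx => by
    rw [RingHom.mem_ker] at hx ⊢
    exact (hker x).1 hx⟩
  let ψ : B →+* B := red.liftOfSurjective hs ⟨red.comp (e.symm : O →+* O), fun x hx => by
    rw [RingHom.mem_ker] at hx ⊢
    apply (hker _).2
    simpa using hx⟩
  have hφ : ∀ x, φ (red x) = red (e x) := fun x =>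
    red.liftOfRightInverse_comp_apply _ _ _ x
  have hψ : ∀ x, ψ (red x) = red (e.symm x) := fun x =>
    red.liftOfRightInverse_comp_apply _ _ _ x
  refine ⟨RingEquiv.ofRingHom φ ψ ?_ ?_, hφ⟩
  · ext b
    obtain ⟨x, rfl⟩ := hs b
    simp [hφ, hψ]
  · ext b
    obtain ⟨x, rfl⟩ := hs b
    simp [hφ, hψ]

end Dec

open Dec

theorem RedData.IsIne.isDec {g : SemilinearAut K F} (h : R.IsIne g) : R.IsDec g := by
  have h2 : ∀ f : F, g • f ∈ R.O ↔ f ∈ R.O := by
    intro f
    constructor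
    · intro hgf
      by_contra hf
      have hf0 : f ≠ 0 := by
        rintro rfl
        exact hf R.O.zero_mem
      have h3 := h _ _ (red_inv_of_notMem hf)
      rw [smul_inv''] at h3
      exact notMem_of_red_inv (by simpa using hf0) h3 hgf
    · intro hf
      exact (h f _ ⟨hf, rfl⟩).1
  refine ⟨fun a => ?_, h2⟩
  rw [← R.algebraMap_mem, ← SemilinearAut.smul_algebraMap, h2, R.algebraMap_mem]

theorem RedData.IsIne.inv {g : SemilinearAut K F} (h : R.IsIne g) : R.IsIne g⁻¹ := by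
  intro f fb hf
  have h1 : g⁻¹ • f ∈ R.O := by
    rw [← h.isDec.2, smul_inv_smul]
    exact hf.1
  have h2 := h _ _ (⟨h1, rfl⟩ : R.Red (g⁻¹ • f) _)
  rw [smul_inv_smul] at h2
  exact ⟨h1, h2.unique hf⟩

theorem RedData.IsDec.inv {g : SemilinearAut K F} (h : R.IsDec g) : R.IsDec g⁻¹ := by
  refine ⟨fun a => ?_, fun f => ?_⟩
  · rw [← h.1, SemilinearAut.baseAut_inv, RingEquiv.apply_symm_apply]
  · rw [← h.2, smul_inv_smul]

theorem RedData.IsDec.mul {g g' : SemilinearAut K F} (h : R.IsDec g) (h' : R.IsDec g') :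
    R.IsDec (g * g') := by
  refine ⟨fun a => ?_, fun f => ?_⟩
  · rw [SemilinearAut.baseAut_mul, RingAut.mul_apply, h.1, h'.1]
  · rw [mul_smul, h.2, h'.2]

namespace Dec

/-- elements of the decomposition group preserve `Red · 0`. -/
theorem red_zero_smul {g : SemilinearAut K F} (hg : R.IsDec g) {f : F} (hf : R.Red f 0) :
    R.Red (g • f) 0 := by
  by_cases hf0 : f = 0
  · rw [hf0, smul_zero]; exact RedData.Red.zero
  have h1 : f⁻¹ ∉ R.O := notMem_of_red_inv (inv_ne_zero hf0) (by rwa [inv_inv])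
  have h2 : g • f⁻¹ ∉ R.O := fun h => h1 ((hg.2 _).1 h)
  have h3 := red_inv_of_notMem h2
  rwa [smul_inv'', inv_inv] at h3

end Dec

set_option linter.unusedVariables false in
/-- inertia is normal in the decomposition group -/
theorem RedData.IsIne.conj (hsurj : Function.Surjective R.red) {g h : SemilinearAut K F}
    (hg : R.IsDec g) (hh : R.IsIne h) : R.IsIne (g * h * g⁻¹) := by
  intro f fb hf
  have h1 : g⁻¹ • f ∈ R.O := (hg.inv.2 f).2 hf.1
  have h2 : R.Red (g⁻¹ • f) (R.red ⟨_, h1⟩) := ⟨h1, rfl⟩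
  have h3 := (hh _ _ h2).sub h2
  rw [sub_self] at h3
  have h4 := red_zero_smul hg h3
  rw [smul_sub, smul_inv_smul] at h4
  have h5 := h4.add hf
  rw [sub_add_cancel, zero_add] at h5
  rwa [mul_smul, mul_smul]

theorem RedData.IsIne.redSub_mapSub {g : SemilinearAut K F} (h : R.IsIne g) (W : Submodule K F) :
    R.redSub (mapSub g W) = R.redSub W := by
  ext fb
  rw [RedData.mem_redSub, RedData.mem_redSub]
  constructor
  · rintro ⟨f, hf, hr⟩
    exact ⟨g⁻¹ • f, hf, h.inv _ _ hr⟩
  · rintro ⟨f, hf, hr⟩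
    exact ⟨g • f, by rw [mem_mapSub, inv_smul_smul]; exact hf, h _ _ hr⟩

theorem RedData.IsIne.res_eq {g : SemilinearAut K F} (h : R.IsIne g) (a : R.A)
    (ha : SemilinearAut.baseAut g (a : K) ∈ R.A) :
    R.res ⟨SemilinearAut.baseAut g (a : K), ha⟩ = R.res a := by
  have h1 := h _ _ (RedData.Red.algebraMap a)
  rw [SemilinearAut.smul_algebraMap] at h1
  have h2 := RedData.Red.algebraMap (R := R) ⟨SemilinearAut.baseAut g (a : K), ha⟩
  exact (algebraMap k Fk).injective (h2.unique h1)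

/-- an element of the decomposition group induces a semilinear automorphism of the residue field -/
theorem RedData.IsDec.exists_resAut (hsurj : Function.Surjective R.red) {g : SemilinearAut K F}
    (hg : R.IsDec g) : ∃ gb : SemilinearAut k Fk, (∀ f fb, R.Red f fb → R.Red (g • f) (gb • fb)) ∧
      ∀ W : Submodule K F, R.redSub (mapSub g W) = mapSub gb (R.redSub W) := by
  -- the automorphism of `O`
  let gO : R.O ≃+* R.O :=
    { toFun := fun x => ⟨g • (x : F), (hg.2 _).2 x.2⟩
      invFun := fun x => ⟨g⁻¹ • (x : F), (hg.inv.2 _).2 x.2⟩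
      left_inv := fun x => Subtype.ext (inv_smul_smul g (x : F))
      right_inv := fun x => Subtype.ext (smul_inv_smul g (x : F))
      map_mul' := fun x y => Subtype.ext (smul_mul' g (x : F) (y : F))
      map_add' := fun x y => Subtype.ext (smul_add g (x : F) (y : F)) }
  let gA : R.A ≃+* R.A :=
    { toFun := fun x => ⟨SemilinearAut.baseAut g (x : K), (hg.1 _).2 x.2⟩
      invFun := fun x => ⟨SemilinearAut.baseAut g⁻¹ (x : K), (hg.inv.1 _).2 x.2⟩
      left_inv := fun x => Subtype.ext (by simp)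
      right_inv := fun x => Subtype.ext (by simp)
      map_mul' := fun x y => Subtype.ext (map_mul (SemilinearAut.baseAut g) (x : K) (y : K))
      map_add' := fun x y => Subtype.ext (map_add (SemilinearAut.baseAut g) (x : K) (y : K)) }
  obtain ⟨eF, heF⟩ := exists_ringEquiv R.red hsurj gO (fun x => by
    rw [R.red_eq_zero, R.red_eq_zero, isUnit_map_iff gO])
  obtain ⟨eK, heK⟩ := exists_ringEquiv R.res R.res_surjective gA (fun x => by
    rw [R.res_eq_zero, R.res_eq_zero, isUnit_map_iff gA])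
  have hcompat : ∀ c : k, eF (algebraMap k Fk c) = algebraMap k Fk (eK c) := by
    intro c
    obtain ⟨a, rfl⟩ := R.res_surjective c
    rw [heK, ← R.red_algebraMap, ← R.red_algebraMap, heF]
    congr 1
    exact Subtype.ext (SemilinearAut.smul_algebraMap g (a : K))
  let gb : SemilinearAut k Fk := ⟨(eF, eK), hcompat⟩
  have hgb : ∀ fb : Fk, gb • fb = eF fb := fun _ => rfl
  have hred : ∀ f fb, R.Red f fb → R.Red (g • f) (gb • fb) := by
    rintro f fb ⟨hf, rfl⟩
    exact ⟨(hg.2 _).2 hf, (heF ⟨f, hf⟩).symm⟩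
  refine ⟨gb, hred, fun W => ?_⟩
  ext fb
  rw [mem_mapSub, RedData.mem_redSub, RedData.mem_redSub]
  constructor
  · rintro ⟨f, hf, hr⟩
    refine ⟨g⁻¹ • f, hf, ?_⟩
    have h1 : g⁻¹ • f ∈ R.O := (hg.inv.2 f).2 hr.1
    have h2 := hred _ _ (⟨h1, rfl⟩ : R.Red (g⁻¹ • f) _)
    rw [smul_inv_smul] at h2
    rw [← h2.unique hr, inv_smul_smul]
    exact ⟨h1, rfl⟩
  · rintro ⟨f, hf, hr⟩
    refine ⟨g • f, by rw [mem_mapSub, inv_smul_smul]; exact hf, ?_⟩
    have := hred _ _ hr
    rwa [smul_inv_smul] at this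

end G1

end Fermat.Agent.S19.KM
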