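import Fermat.Agent.S19.KM.GR.Defs
import Fermat.Agent.S19.KM.Curve.Basic

/-!
# S19 / KM route, section G0: semilinear automorphisms (one curve, no reduction)
Proofs: helper61.
-/

set_option autoImplicit false

noncomputable section

namespace Fermat.Agent.S19.KM

open AlgebraicCurve Fermat.Agent.S24.FF Fermat.Agent.Lib.RR Module Submodule

variable {K F : Type*} [Field K] [Field F] [Algebra K F]

/-- `ord_w (g f) = ord_{g⁻¹ w} f` -/
theorem ord_smul_eq (g : SemilinearAut K F) (w : Place K F) (f : F) :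
    w.ord (g • f) = (g⁻¹ • w).ord f := by
  have h := SemilinearAut.ord_smul g (g⁻¹ • w) f
  rwa [smul_inv_smul] at h

theorem mapSub_L (g : SemilinearAut K F) (D : Divisor K F) : mapSub g (L D) = L (g • D) := by
  ext f
  rw [mem_mapSub, mem_riemannRochSpace_iff, mem_riemannRochSpace_iff]
  have h0 : g⁻¹ • f = 0 ↔ f = 0 := smul_eq_zero_iff_eq g⁻¹
  constructor
  · intro h w
    have h1 := h (g⁻¹ • w)
    rw [h0, ord_smul_eq, inv_inv, smul_inv_smul] at h1
    rwa [SemilinearAut.divisor_smul_apply]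
  · intro h v
    have h1 := h (g • v)
    rw [SemilinearAut.divisor_smul_apply, inv_smul_smul] at h1
    rwa [h0, ord_smul_eq, inv_inv]

/-- the additive equivalence `W ≃ mapSub g W` -/
def mapSubEquiv (g : SemilinearAut K F) (W : Submodule K F) : W ≃+ mapSub g W where
  toFun f := ⟨g • (f : F), by rw [mem_mapSub, inv_smul_smul]; exact f.2⟩
  invFun f := ⟨g⁻¹ • (f : F), f.2⟩
  left_inv f := Subtype.ext (inv_smul_smul g (f : F))
  right_inv f := Subtype.ext (smul_inv_smul g (f : F))
  map_add' a b := Subtype.ext (smul_add g (a : F) (b : F))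

theorem finrank_mapSub (g : SemilinearAut K F) (W : Submodule K F) :
    finrank K (mapSub g W) = finrank K W := by
  have h := rank_eq_of_equiv_equiv (SemilinearAut.baseAut g) (mapSubEquiv g W)
    (SemilinearAut.baseAut g).bijective (by
      intro r m
      apply Subtype.ext
      show g • (r • (m : F)) = SemilinearAut.baseAut g r • (g • (m : F))
      rw [Algebra.smul_def, smul_mul', SemilinearAut.smul_algebraMap, ← Algebra.smul_def])
  exact (congrArg Cardinal.toNat h).symm

theorem ell_smul (g : SemilinearAut K F) (D : Divisor K F) : ell (g • D) = ell D := by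
  show finrank K (L (g • D)) = finrank K (L D)
  rw [← mapSub_L, finrank_mapSub]

theorem smul_divOf [IsCurve K F] (g : SemilinearAut K F) (f : F) :
    g • divOf (K := K) f = divOf (g • f) := by
  ext w
  rw [SemilinearAut.divisor_smul_apply, divOf_apply, divOf_apply, ord_smul_eq]

theorem smul_poleDiv [IsCurve K F] (g : SemilinearAut K F) (f : F) :
    g • poleDiv (K := K) f = poleDiv (g • f) := by
  ext w
  rw [SemilinearAut.divisor_smul_apply, poleDiv_apply, poleDiv_apply, ord_smul_eq]

theorem smul_nonneg_iff (g : SemilinearAut K F) (D : Divisor K F) : 0 ≤ g • D ↔ 0 ≤ D := by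
  rw [Finsupp.le_def, Finsupp.le_def]
  constructor
  · intro h v
    have h1 := h (g • v)
    rwa [SemilinearAut.divisor_smul_apply, inv_smul_smul] at h1
  · intro h w
    rw [SemilinearAut.divisor_smul_apply]
    exact h _

theorem Rep.smul (g : SemilinearAut K F) {D : Divisor K F} {c : Pic0 K F} (h : Rep D c) :
    Rep (g • D) (g • c) := by
  obtain ⟨hD, rfl⟩ := h
  exact ⟨SemilinearAut.smul_mem_degZero g hD, rfl⟩

theorem Rep.add {D D' : Divisor K F} {c c' : Pic0 K F} (h : Rep D c) (h' : Rep D' c') :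
    Rep (D + D') (c + c') := by
  obtain ⟨hD, rfl⟩ := h
  obtain ⟨hD', rfl⟩ := h'
  exact ⟨add_mem hD hD', rfl⟩

theorem Rep.sub {D D' : Divisor K F} {c c' : Pic0 K F} (h : Rep D c) (h' : Rep D' c') :
    Rep (D - D') (c - c') := by
  obtain ⟨hD, rfl⟩ := h
  obtain ⟨hD', rfl⟩ := h'
  exact ⟨sub_mem hD hD', rfl⟩

theorem exists_rep (c : Pic0 K F) : ∃ D, Rep D c := by
  obtain ⟨D, rfl⟩ := Pic0.mk_surjective c
  exact ⟨D.1, D.2, rfl⟩

/-- two representatives differ by a principal divisor -/
theorem Rep.exists_divOf [IsCurve K F] {D D' : Divisor K F} {c : Pic0 K F} (h : Rep D c)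
    (h' : Rep D' c) : ∃ y : F, y ≠ 0 ∧ D - D' = divOf y := by
  obtain ⟨hD, rfl⟩ := h
  obtain ⟨hD', he⟩ := h'
  have h1 := QuotientAddGroup.eq.mp he
  rw [AddSubgroup.mem_addSubgroupOf] at h1
  obtain ⟨f, hf, hfv⟩ := h1
  refine ⟨f, hf, ?_⟩
  ext v
  rw [divOf_apply, ← hfv v]
  show (D - D') v = (-D' + D) v
  rw [neg_add_eq_sub]

theorem Rep.of_divOf [IsCurve K F] {D D' : Divisor K F} {c : Pic0 K F} (h : Rep D c) {y : F}
    (hy : y ≠ 0) (e : D' - D = divOf y) : Rep D' c := by
  obtain ⟨hD, rfl⟩ := h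
  have hD' : D' ∈ Divisor.degZero (K := K) (F := F) := by
    have h1 : D' = D + divOf y := by rw [← e]; abel
    rw [Divisor.mem_degZero] at hD ⊢
    rw [h1, map_add, hD, degree_divOf, add_zero]
  refine ⟨hD', ?_⟩
  refine (QuotientAddGroup.eq.mpr ?_).symm
  rw [AddSubgroup.mem_addSubgroupOf]
  refine ⟨y, hy, fun v => ?_⟩
  show (-D + D') v = _
  rw [neg_add_eq_sub, e, divOf_apply]

end Fermat.Agent.S19.KM
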