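import Mathlib
import Fermat.Prelude.Def_AlgebraicCurve_BaseChangeGalois
import Fermat.Agent.S19.KM.Curve.Defs
import Fermat.Agent.S19.KM.Red.Defs

/-!
# S19 / KM route: good reduction data for a curve (definitions)

`GRData K F k Fk` : the single interface between the abstract theory and the modular curve.
`F / K` and `Fk / k` are curves, `O` a valuation ring of `F` over the valuation ring `A` of `K` with
residue field `Fk`, `x ∈ O` a function with reduction `xk`, `M = (x)_∞`, `Mk = (xk)_∞` of the same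
degree, such that for all `i ≥ i₀` the space `L(iM)` has a basis, fixed by the group `Γ` of
semilinear automorphisms, lying in `O`, whose reduction is a basis of `L(i Mk)`.

Owner: helper19.
-/

set_option autoImplicit false

noncomputable section

namespace Fermat.Agent.S19.KM

open AlgebraicCurve Fermat.Agent.S24.FF Fermat.Agent.Lib.RR Module

variable {K F k Fk : Type*} [Field K] [Field F] [Algebra K F] [Field k] [Field Fk] [Algebra k Fk]

/-- the image of a subspace under a semilinear automorphism -/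
def mapSub (g : SemilinearAut K F) (W : Submodule K F) : Submodule K F where
  carrier := {f | g⁻¹ • f ∈ W}
  zero_mem' := by simp
  add_mem' := fun {a b} ha hb => by
    simp only [Set.mem_setOf_eq, smul_add] at *
    exact W.add_mem ha hb
  smul_mem' := fun c a ha => by
    simp only [Set.mem_setOf_eq] at *
    rw [Algebra.smul_def, smul_mul', SemilinearAut.smul_algebraMap, ← Algebra.smul_def]
    exact W.smul_mem _ ha

theorem mem_mapSub {g : SemilinearAut K F} {W : Submodule K F} {f : F} :
    f ∈ mapSub g W ↔ g⁻¹ • f ∈ W := Iff.rfl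

/-- the divisor `D` has degree zero and class `c` -/
def Rep (D : Divisor K F) (c : Pic0 K F) : Prop :=
  ∃ h : D ∈ Divisor.degZero (K := K) (F := F), Pic0.mk ⟨D, h⟩ = c

namespace RedData

variable (R : RedData K F k Fk)

/-- `g` is in the decomposition group of `(A, O)` -/
def IsDec (g : SemilinearAut K F) : Prop :=
  (∀ a : K, SemilinearAut.baseAut g a ∈ R.A ↔ a ∈ R.A) ∧ ∀ f : F, g • f ∈ R.O ↔ f ∈ R.O

/-- `g` is in the inertia group of `O` -/
def IsIne (g : SemilinearAut K F) : Prop := ∀ f fb, R.Red f fb → R.Red (g • f) fb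

end RedData

/-- good reduction data -/
structure GRData (K F k Fk : Type*) [Field K] [Field F] [Algebra K F] [Field k] [Field Fk]
    [Algebra k Fk] [IsCurve K F] [IsCurve k Fk] extends RedData K F k Fk where
  red_surjective : Function.Surjective red
  x : F
  xk : Fk
  x_tr : Transcendental K x
  xk_tr : Transcendental k xk
  red_x : toRedData.Red x xk
  deg_eq : dg (poleDiv (K := K) x) = dg (poleDiv (K := k) xk)
  Γ : Subgroup (SemilinearAut K F)
  Γ_x : ∀ g ∈ Γ, g • x = x
  i₀ : ℕ
  exists_frame : ∀ i, i₀ ≤ i → ∃ (m : ℕ) (v : Fin m → F) (vb : Fin m → Fk),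
    toRedData.IsFrame v vb ∧ Submodule.span K (Set.range v) = L (i • poleDiv (K := K) x) ∧
      Submodule.span k (Set.range vb) = L (i • poleDiv (K := k) xk) ∧ ∀ g ∈ Γ, ∀ j, g • v j = v j
  finite_bad : {c : k | ∃ w : Place k Fk, 2 ≤ w.ord (xk - algebraMap k Fk c)}.Finite
  exists_teich : ∀ c : k, ∃ a : A, res a = c ∧
    ∀ g ∈ Γ, toRedData.IsIne g → SemilinearAut.baseAut g (a : K) = a

namespace GRData

variable [IsCurve K F] [IsCurve k Fk] (𝔊 : GRData K F k Fk)

/-- `M = (x)_∞` -/
def M : Divisor K F := poleDiv (K := K) 𝔊.x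

/-- `Mk = (xk)_∞` -/
def Mk : Divisor k Fk := poleDiv (K := k) 𝔊.xk

/-- `n = deg M` -/
def n : ℤ := dg 𝔊.M

/-- `i` is large with respect to divisors of degree `d` -/
def Big (d : ℤ) (i : ℕ) : Prop :=
  𝔊.i₀ ≤ i ∧ bd K F + d + gen K F + 1 ≤ i * 𝔊.n ∧ bd k Fk + d + gen K F + 1 ≤ i * 𝔊.n

/-- `Eb` is the reduction of the effective divisor `E` -/
def IsRdiv (E : Divisor K F) (Eb : Divisor k Fk) : Prop :=
  0 ≤ E ∧ 0 ≤ Eb ∧ dg Eb = dg E ∧
    ∀ i, 𝔊.Big (dg E) i → 𝔊.redSub (L (i • 𝔊.M - E)) = L (i • 𝔊.Mk - Eb)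

variable {X : Type*} [AddCommGroup X] (ι : X →+ Pic0 K F)

/-- `E` is an effective divisor in the class `ι P + [E₀]` -/
def IsEP (E₀ : Divisor K F) (P : X) (E : Divisor K F) : Prop := 0 ≤ E ∧ Rep (E - E₀) (ι P)

/-- `E₀` is admissible for the finite group `X` of divisor classes -/
structure IsAdm (E₀ : Divisor K F) : Prop where
  eff : 0 ≤ E₀
  deg : dg E₀ = gen K F
  ine : ∀ g ∈ 𝔊.Γ, 𝔊.IsIne g → g • E₀ = E₀
  one : ∀ (P : X) (E : Divisor K F) (Eb : Divisor k Fk), IsEP ι E₀ P E → 𝔊.IsRdiv E Eb → ell Eb = 1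

open Classical in
/-- the effective divisor in the class `ι P + [E₀]` -/
def EP (E₀ : Divisor K F) (P : X) : Divisor K F :=
  if h : ∃ E, IsEP ι E₀ P E then h.choose else 0

/-- Khuri-Makdisi's representation of the class `ι P` -/
def VV (E₀ : Divisor K F) (m : ℕ) (P : X) : Submodule K F := L (m • 𝔊.M - EP ι E₀ P)

end GRData

end Fermat.Agent.S19.KM
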